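import Fermat.Agent.Lib.FF460.Norm
import Fermat.Agent.Lib.RR.H804.Modular
import Fermat.Prelude.Def_ModularCurve_HeckeOperatorTotal

/-!
# `HeckeInputsAlong ℚ̄ N ℓ` holds  (helper460)

The Prelude's Hecke operator `heckeOperatorAlong L N ℓ` on `Pic⁰` of the function field of
`X₀(N)` is defined by a `dite` on `HeckeInputsAlong L N ℓ` (junk value `0` otherwise).  Here we
prove `HeckeInputsAlong (AlgebraicClosure ℚ) N ℓ` for all `N`, `ℓ`, so that
`heckeOperatorAlong = heckePic0Bar …` is the genuine correspondence `α_* ∘ β^*`.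
-/

set_option autoImplicit false
set_option linter.unusedSectionVars false
set_option linter.style.haveILetI false

open AlgebraicCurve ModularCurve IntermediateField

namespace Fermat.Agent.Lib.FF460

section Tower

variable {K F F' : Type*} [Field K] [Field F] [Field F'] [Algebra K F] [Algebra K F']
  [Algebra F F'] [IsScalarTower K F F']

/-- If `F'` is finite over `K(x')` with `x'` the image of some `x ∈ F`, then `F'` is finite
over `F`. -/
theorem finiteDimensional_of_adjoin (x : F)
    [h : FiniteDimensional (IntermediateField.adjoin K {algebraMap F F' x}) F'] :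
    FiniteDimensional F F' := by
  classical
  have hle : IntermediateField.adjoin K {algebraMap F F' x} ≤
      (IsScalarTower.toAlgHom K F F').fieldRange := by
    rw [IntermediateField.adjoin_le_iff, Set.singleton_subset_iff]
    exact ⟨x, rfl⟩
  obtain ⟨S, hS⟩ := h.fg_top
  refine ⟨⟨S, ?_⟩⟩
  rw [eq_top_iff]
  rintro y -
  have hy : y ∈ Submodule.span (IntermediateField.adjoin K {algebraMap F F' x}) (S : Set F') := by
    rw [hS]
    trivial
  induction hy using Submodule.span_induction with
  | mem z hz => exact Submodule.subset_span hz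
  | zero => exact zero_mem _
  | add a b _ _ ha hb => exact add_mem ha hb
  | smul c z _ hz =>
    obtain ⟨f, hf⟩ := hle c.2
    have : c • z = f • z := by
      rw [Algebra.smul_def, Algebra.smul_def]
      congr 1
      exact hf.symm
    rw [this]
    exact Submodule.smul_mem _ _ hz

end Tower

section Modular

variable (N ℓ : ℕ) [NeZero N] [NeZero ℓ]

open Fermat.Agent.S24 Fermat.Agent.Lib.RR.H804

/-- The image of `j` under the degeneracy map `α` is `j`. -/
theorem heckeAlphaBar_jF :
    heckeAlphaBar (AlgebraicClosure ℚ) N ℓ (jF N) = jF (N * ℓ) :=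
  Subtype.ext rfl

/-- The image of `j` under the degeneracy map `β` is transcendental. -/
theorem transcendental_heckeBetaBar_jF :
    Transcendental (AlgebraicClosure ℚ) (heckeBetaBar (AlgebraicClosure ℚ) N ℓ (jF N)) := by
  intro h
  apply transcendental_jF N
  exact (isAlgebraic_algHom_iff (heckeBetaBar (AlgebraicClosure ℚ) N ℓ)
    (heckeBetaBar (AlgebraicClosure ℚ) N ℓ).injective).mp h

theorem finiteAlong_heckeAlphaBar :
    FiniteAlong (AlgebraicClosure ℚ) (heckeAlphaBar (AlgebraicClosure ℚ) N ℓ) := by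
  letI := algebraAlong (heckeAlphaBar (AlgebraicClosure ℚ) N ℓ)
  haveI := isScalarTower_along (heckeAlphaBar (AlgebraicClosure ℚ) N ℓ)
  show Module.Finite _ _
  haveI : FiniteDimensional (IntermediateField.adjoin (AlgebraicClosure ℚ)
      {algebraMap ↥(modularFunctionFieldBar N) ↥(modularFunctionFieldBar (N * ℓ)) (jF N)})
      ↥(modularFunctionFieldBar (N * ℓ)) := by
    have : algebraMap ↥(modularFunctionFieldBar N) ↥(modularFunctionFieldBar (N * ℓ)) (jF N)
        = jF (N * ℓ) := heckeAlphaBar_jF N ℓ
    rw [this]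
    exact finiteDimensional_jF (N * ℓ)
  exact finiteDimensional_of_adjoin (K := AlgebraicClosure ℚ) (jF N)

theorem finiteAlong_heckeBetaBar :
    FiniteAlong (AlgebraicClosure ℚ) (heckeBetaBar (AlgebraicClosure ℚ) N ℓ) := by
  letI := algebraAlong (heckeBetaBar (AlgebraicClosure ℚ) N ℓ)
  haveI := isScalarTower_along (heckeBetaBar (AlgebraicClosure ℚ) N ℓ)
  show Module.Finite _ _
  haveI := finiteDimensional_jF (N * ℓ)
  haveI : FiniteDimensional (IntermediateField.adjoin (AlgebraicClosure ℚ)
      {algebraMap ↥(modularFunctionFieldBar N) ↥(modularFunctionFieldBar (N * ℓ)) (jF N)})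
      ↥(modularFunctionFieldBar (N * ℓ)) :=
    Fermat.Agent.S24.FF.finiteDimensional_adjoin_of_transcendental
      (transcendental_jF (N * ℓ)) (transcendental_heckeBetaBar_jF N ℓ)
  exact finiteDimensional_of_adjoin (K := AlgebraicClosure ℚ) (jF N)

theorem heckeAlphaBarIntegral : HeckeAlphaBarIntegral (AlgebraicClosure ℚ) N ℓ := by
  letI := algebraAlong (heckeAlphaBar (AlgebraicClosure ℚ) N ℓ)
  haveI : Module.Finite ↥(modularFunctionFieldBar N) ↥(modularFunctionFieldBar (N * ℓ)) :=
    finiteAlong_heckeAlphaBar N ℓ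
  exact fun y => Algebra.IsIntegral.isIntegral (R := ↥(modularFunctionFieldBar N)) y

theorem heckeBetaBarIntegral : HeckeBetaBarIntegral (AlgebraicClosure ℚ) N ℓ := by
  letI := algebraAlong (heckeBetaBar (AlgebraicClosure ℚ) N ℓ)
  haveI : Module.Finite ↥(modularFunctionFieldBar N) ↥(modularFunctionFieldBar (N * ℓ)) :=
    finiteAlong_heckeBetaBar N ℓ
  exact fun y => Algebra.IsIntegral.isIntegral (R := ↥(modularFunctionFieldBar N)) y

theorem fundamentalIdentityAlong_heckeBetaBar :
    FundamentalIdentityAlong (AlgebraicClosure ℚ) (heckeBetaBar (AlgebraicClosure ℚ) N ℓ)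
      (heckeBetaBarIntegral N ℓ) := by
  letI := algebraAlong (heckeBetaBar (AlgebraicClosure ℚ) N ℓ)
  haveI := isScalarTower_along (heckeBetaBar (AlgebraicClosure ℚ) N ℓ)
  haveI : Module.Finite ↥(modularFunctionFieldBar N) ↥(modularFunctionFieldBar (N * ℓ)) :=
    finiteAlong_heckeBetaBar N ℓ
  haveI := finiteDimensional_jF (N * ℓ)
  exact fundamentalIdentity (K := AlgebraicClosure ℚ) (F := ↥(modularFunctionFieldBar N))
    (transcendental_jF (N * ℓ))

theorem normFormulaAlong_heckeAlphaBar :
    NormFormulaAlong (AlgebraicClosure ℚ) (heckeAlphaBar (AlgebraicClosure ℚ) N ℓ)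
      (finiteAlong_heckeAlphaBar N ℓ) := by
  letI := algebraAlong (heckeAlphaBar (AlgebraicClosure ℚ) N ℓ)
  haveI := isScalarTower_along (heckeAlphaBar (AlgebraicClosure ℚ) N ℓ)
  haveI : Module.Finite ↥(modularFunctionFieldBar N) ↥(modularFunctionFieldBar (N * ℓ)) :=
    finiteAlong_heckeAlphaBar N ℓ
  haveI := finiteDimensional_jF (N * ℓ)
  exact pushforwardNormFormula (K := AlgebraicClosure ℚ) (F := ↥(modularFunctionFieldBar N))
    (transcendental_jF (N * ℓ))

/-- **The Hecke inputs hold over `ℚ̄`**: the Prelude's `heckeOperatorAlong ℚ̄ N ℓ` is the genuine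
Hecke correspondence. -/
theorem heckeInputsAlong_bar : HeckeInputsAlong (AlgebraicClosure ℚ) N ℓ :=
  heckeInputsAlong_intro (heckeAlphaBarIntegral N ℓ) (heckeBetaBarIntegral N ℓ)
    (fundamentalIdentityAlong_heckeBetaBar N ℓ) (finiteAlong_heckeAlphaBar N ℓ)
    (normFormulaAlong_heckeAlphaBar N ℓ)

end Modular

end Fermat.Agent.Lib.FF460
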