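import Fermat.Agent.Lib.FF460.Fund

/-!
# Function-field library (helper460): the norm formula `π_* div(f) = div(N_{F'/F} f)`

For a finite extension `F'/F` of function fields over an algebraically closed field `K` of
characteristic zero, in the Prelude's language: `Divisor.PushforwardNormFormula K F F'`.
Proof: Mathlib's relative ideal norm for the integral closure `B` of `O_v` in `F'`.
-/

set_option autoImplicit false
set_option linter.unusedSectionVars false
set_option linter.style.haveILetI false

open IsDedekindDomain AlgebraicCurve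

namespace Fermat.Agent.Lib.FF460

section Local

variable {K F F' : Type*} [Field K] [Field F] [Field F'] [Algebra K F] [Algebra K F']
  [Algebra F F'] [IsScalarTower K F F'] [FiniteDimensional F F'] [Algebra.IsSeparable F F']
variable (v : Place K F)

/-- Every height-one prime of the integral closure of `O_v` lies over the maximal ideal. -/
theorem liesOver_maxId (P : HeightOneSpectrum (intCl F' v)) : P.asIdeal.LiesOver (maxId v) := by
  have hmax : (P.asIdeal.under ↥v.toValuationSubring).IsMaximal := by
    have hne : P.asIdeal.under ↥v.toValuationSubring ≠ ⊥ :=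
      Ideal.under_ne_bot _ P.ne_bot
    haveI := P.isPrime
    exact (Ideal.IsPrime.under _ P.asIdeal).isMaximal hne
  exact ⟨(IsLocalRing.eq_maximalIdeal hmax).symm⟩

/-- Primes over the maximal ideal of `O_v` are exactly the height-one primes of `B`. -/
def equivOver : (maxId v).primesOver (intCl F' v) ≃ HeightOneSpectrum (intCl F' v) where
  toFun := primeOfOver v
  invFun P := ⟨P.asIdeal, P.isPrime, liesOver_maxId v P⟩
  left_inv _ := Subtype.ext rfl
  right_inv _ := HeightOneSpectrum.ext rfl

noncomputable instance instFintypeHeightOneSpectrumIntCl :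
    Fintype (HeightOneSpectrum (intCl F' v)) :=
  Fintype.ofEquiv _ (equivOver v)

/-- The multiplicity of `P` in the factorisation of `(b)`. -/
noncomputable abbrev cnt (P : HeightOneSpectrum (intCl F' v)) (b : intCl F' v) : ℕ :=
  (Associates.mk P.asIdeal).count (Associates.mk (Ideal.span {b})).factors

theorem ord_ofHeightOneSpectrum_coe (P : HeightOneSpectrum (intCl F' v)) {b : intCl F' v}
    (hb : b ≠ 0) :
    (Place.ofHeightOneSpectrum (K := K) (F := F') P).ord (b : F') = (cnt v P b : ℤ) := by
  rw [ord_ofHeightOneSpectrum]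
  have h1 : P.valuation F' (b : F') = P.intValuation b := P.valuation_of_algebraMap b
  rw [h1, P.intValuation_if_neg hb]
  simp

variable [CharZero K]

theorem charZero_valuationSubring : CharZero ↥v.toValuationSubring :=
  charZero_of_injective_algebraMap (R := K) (FaithfulSMul.algebraMap_injective K _)

/-- `ord_v` of the integral norm of `b ∈ B` is the total multiplicity of `(b)`, provided all
residue degrees are one. -/
theorem ord_intNorm
    (hin : ∀ P : HeightOneSpectrum (intCl F' v), P.asIdeal.inertiaDeg ↥v.toValuationSubring = 1)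
    {b : intCl F' v} (hb : b ≠ 0) :
    v.ord (algebraMap ↥v.toValuationSubring F (Algebra.intNorm ↥v.toValuationSubring (intCl F' v) b))
      = ∑ P : HeightOneSpectrum (intCl F' v), (cnt v P b : ℤ) := by
  classical
  haveI := charZero_valuationSubring v
  haveI : CharZero (FractionRing ↥v.toValuationSubring) := IsFractionRing.charZero _
  obtain ⟨π, hπ⟩ := IsDiscreteValuationRing.exists_irreducible ↥v.toValuationSubring
  have hI : Ideal.span {b} ≠ (0 : Ideal (intCl F' v)) := by
    rw [Ne, Ideal.zero_eq_bot, Ideal.span_singleton_eq_bot]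
    exact hb
  have h1 := Ideal.finprod_heightOneSpectrum_factorization hI
  rw [finprod_eq_prod_of_fintype] at h1
  have h2 : Ideal.relNorm ↥v.toValuationSubring (Ideal.span {b}) =
      (maxId v) ^ (∑ P : HeightOneSpectrum (intCl F' v), cnt v P b) := by
    conv_lhs => rw [← h1]
    rw [map_prod, ← Finset.prod_pow_eq_pow_sum]
    refine Finset.prod_congr rfl fun P _ => ?_
    haveI := liesOver_maxId v P
    haveI : P.asIdeal.IsMaximal := P.isPrime.isMaximal P.ne_bot
    rw [HeightOneSpectrum.maxPowDividing, map_pow,
      Ideal.relNorm_eq_pow_of_isMaximal P.asIdeal (maxId v), hin P, pow_one]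
  rw [Ideal.relNorm_singleton, maxId, hπ.maximalIdeal_eq, Ideal.span_singleton_pow,
    Ideal.span_singleton_eq_span_singleton] at h2
  obtain ⟨u, hu⟩ := h2.symm
  -- `π ^ k * u = intNorm b`
  set k : ℕ := ∑ P : HeightOneSpectrum (intCl F' v), cnt v P b with hk
  have hu0 : ((u : ↥v.toValuationSubring) : F) ≠ 0 := by
    intro h
    have := u.ne_zero
    exact this (Subtype.ext h)
  have key := ord_eq_of_eq_mul_zpow v (ϖ := (π : F)) (g := ((u : ↥v.toValuationSubring) : F))
    (f := algebraMap ↥v.toValuationSubring F
      (Algebra.intNorm ↥v.toValuationSubring (intCl F' v) b)) (n := (k : ℤ)) π.2 hπ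
    (u : ↥v.toValuationSubring).2 ?_ hu0 ?_
  · rw [key, hk]
    push_cast
    rfl
  · have : (((u⁻¹ : (↥v.toValuationSubring)ˣ) : ↥v.toValuationSubring) : F)
        = ((u : ↥v.toValuationSubring) : F)⁻¹ := by
      apply eq_inv_of_mul_eq_one_left
      show ((((u⁻¹ : (↥v.toValuationSubring)ˣ) : ↥v.toValuationSubring) *
        (u : ↥v.toValuationSubring) : ↥v.toValuationSubring) : F) = 1
      rw [Units.inv_mul]
      rfl
    rw [← this]
    exact ((u⁻¹ : (↥v.toValuationSubring)ˣ) : ↥v.toValuationSubring).2
  · rw [← hu]
    show ((π ^ k * (u : ↥v.toValuationSubring) : ↥v.toValuationSubring) : F) = _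
    push_cast
    rw [zpow_natCast, mul_comm]

/-- The sum of `ord_w` over all places `w` above `v` (indexed by the height-one primes of `B`). -/
noncomputable abbrev sumOrd (f : F') : ℤ :=
  ∑ P : HeightOneSpectrum (intCl F' v), (Place.ofHeightOneSpectrum (K := K) (F := F') P).ord f

theorem sumOrd_mul {f g : F'} (hf : f ≠ 0) (hg : g ≠ 0) :
    sumOrd v (f * g) = sumOrd v f + sumOrd v g := by
  simp only [sumOrd]
  rw [← Finset.sum_add_distrib]
  exact Finset.sum_congr rfl fun P _ => Place.ord_mul _ hf hg

theorem sumOrd_inv (f : F') : sumOrd v f⁻¹ = - sumOrd v f := by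
  simp only [sumOrd]
  rw [← Finset.sum_neg_distrib]
  exact Finset.sum_congr rfl fun P _ => Place.ord_inv _ f

theorem sumOrd_coe
    (hin : ∀ P : HeightOneSpectrum (intCl F' v), P.asIdeal.inertiaDeg ↥v.toValuationSubring = 1)
    {b : intCl F' v} (hb : b ≠ 0) :
    sumOrd v (b : F') = v.ord (Algebra.norm F (b : F')) := by
  have h := ord_intNorm v hin hb
  rw [Algebra.algebraMap_intNorm (L := F')] at h
  rw [show (b : F') = algebraMap (intCl F' v) F' b from rfl, h]
  exact Finset.sum_congr rfl fun P _ => ord_ofHeightOneSpectrum_coe v P hb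

/-- **Norm formula, local form**: `∑_{w | v} ord_w f = ord_v (N_{F'/F} f)`. -/
theorem sumOrd_eq_ord_norm
    (hin : ∀ P : HeightOneSpectrum (intCl F' v), P.asIdeal.inertiaDeg ↥v.toValuationSubring = 1)
    {f : F'} (hf : f ≠ 0) :
    sumOrd v f = v.ord (Algebra.norm F f) := by
  obtain ⟨x, y, hy, rfl⟩ := IsFractionRing.div_surjective (intCl F' v) f
  have hy0 : y ≠ 0 := nonZeroDivisors.ne_zero hy
  have hx0 : x ≠ 0 := by
    rintro rfl
    simp at hf
  have hx' : algebraMap (intCl F' v) F' x ≠ 0 :=
    (map_ne_zero_iff _ (IsFractionRing.injective _ _)).mpr hx0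
  have hy' : algebraMap (intCl F' v) F' y ≠ 0 :=
    (map_ne_zero_iff _ (IsFractionRing.injective _ _)).mpr hy0
  have hnx : Algebra.norm F (algebraMap (intCl F' v) F' x) ≠ 0 :=
    Algebra.norm_ne_zero_iff.mpr hx'
  have hny : Algebra.norm F (algebraMap (intCl F' v) F' y) ≠ 0 :=
    Algebra.norm_ne_zero_iff.mpr hy'
  have hinv : Algebra.norm F (algebraMap (intCl F' v) F' y)⁻¹ =
      (Algebra.norm F (algebraMap (intCl F' v) F' y))⁻¹ := by
    apply eq_inv_of_mul_eq_one_left
    rw [← map_mul, inv_mul_cancel₀ hy', map_one]
  rw [div_eq_mul_inv, sumOrd_mul v hx' (inv_ne_zero hy'), sumOrd_inv, map_mul, hinv,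
    Place.ord_mul _ hnx (inv_ne_zero hny), Place.ord_inv]
  have h1 := sumOrd_coe v hin hx0
  have h2 := sumOrd_coe v hin hy0
  rw [show (x : F') = algebraMap (intCl F' v) F' x from rfl] at h1
  rw [show (y : F') = algebraMap (intCl F' v) F' y from rfl] at h2
  rw [h1, h2]

end Local

section Main

variable {K F F' : Type*} [Field K] [Field F] [Field F'] [Algebra K F] [Algebra K F']
  [Algebra F F'] [IsScalarTower K F F'] [FiniteDimensional F F']
  [IsAlgClosed K] [CharZero K]

/-- **Norm formula** `π_* div(f) = div(N_{F'/F} f)` for a finite extension of function fields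
over an algebraically closed field of characteristic zero. -/
theorem pushforwardNormFormula {x : F'} (hx : Transcendental K x)
    [FiniteDimensional (IntermediateField.adjoin K {x}) F'] :
    Divisor.PushforwardNormFormula K F F' := by
  classical
  intro f hf D hD v
  haveI : Algebra.IsSeparable F F' := isSeparable_of_charZero K
  have hin : ∀ P : HeightOneSpectrum (intCl F' v),
      P.asIdeal.inertiaDeg ↥v.toValuationSubring = 1 := fun P =>
    inertiaDeg_primesOver_eq_one v hx ((equivOver v).symm P)
  rw [← sumOrd_eq_ord_norm v hin hf, Divisor.pushforward_apply]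
  -- rewrite the left-hand side as a sum over the fibre
  have hL : ∑ w ∈ D.support, (if w.restrict F = v then D w * (w.inertiaDeg F : ℤ) else 0)
      = ∑ w ∈ D.support.filter (fun w => w.restrict F = v), w.ord f := by
    rw [Finset.sum_filter]
    refine Finset.sum_congr rfl fun w _ => ?_
    by_cases h : w.restrict F = v
    · rw [if_pos h, if_pos h, hD, place_inertiaDeg_eq_one hx]
      simp
    · rw [if_neg h, if_neg h]
  rw [hL]
  have hinj : Function.Injective
      (fun P : HeightOneSpectrum (intCl F' v) => Place.ofHeightOneSpectrum (K := K) (F := F') P) :=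
    ofHeightOneSpectrum_injective (K := K) (F := F') (B := intCl F' v)
  have hR : sumOrd v f = ∑ w ∈ (Finset.univ.image
      (fun P : HeightOneSpectrum (intCl F' v) => Place.ofHeightOneSpectrum (K := K) (F := F') P)),
      w.ord f := by
    rw [Finset.sum_image (fun P _ Q _ h => hinj h)]
  rw [hR]
  refine Finset.sum_subset ?_ ?_
  · intro w hw
    rw [Finset.mem_filter] at hw
    obtain ⟨Q, hQ⟩ := exists_placeOfOver_eq v hw.2
    exact Finset.mem_image.mpr ⟨primeOfOver v Q, Finset.mem_univ _, hQ⟩
  · intro w hw hw'
    obtain ⟨P, -, rfl⟩ := Finset.mem_image.mp hw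
    rw [Finset.mem_filter, not_and] at hw'
    have : Place.ofHeightOneSpectrum (K := K) (F := F') P ∉ D.support := fun h =>
      hw' h (restrict_ofHeightOneSpectrum v P)
    rw [Finsupp.notMem_support_iff, hD] at this
    exact this

end Main

end Fermat.Agent.Lib.FF460
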