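import Fermat.Prelude.Def_AlgebraicCurve_DivisorPushPull
import Mathlib

/-!
# Function-field library (helper460): `Place.ord` versus adic valuations of a Dedekind model

`Fermat.Agent.Lib.FF460`: generic lemmas relating the Prelude's `AlgebraicCurve.Place`
(`ord`, `deg`, `restrict`, ...) to height-one primes of a Dedekind domain `B` with fraction
field `F`.
-/

set_option autoImplicit false

open IsDedekindDomain AlgebraicCurve

namespace Fermat.Agent.Lib.FF460

section General

variable {K F : Type*} [Field K] [Field F] [Algebra K F]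

/-- Characterisation of `ord` through a uniformiser: if `ϖ` generates the maximal ideal of the
valuation ring of `v` and `f = g * ϖ ^ n` with `g` a unit of the valuation ring, then
`ord f = n`. -/
theorem ord_eq_of_eq_mul_zpow (v : Place K F) {ϖ g f : F} {n : ℤ}
    (hϖ : ϖ ∈ v.toValuationSubring)
    (hirr : Irreducible (⟨ϖ, hϖ⟩ : v.toValuationSubring))
    (hg : g ∈ v.toValuationSubring) (hg' : g⁻¹ ∈ v.toValuationSubring) (hg0 : g ≠ 0)
    (hf : f = g * ϖ ^ n) : v.ord f = n := by
  have hu : IsUnit (⟨g, hg⟩ : v.toValuationSubring) := by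
    refine ⟨⟨⟨g, hg⟩, ⟨g⁻¹, hg'⟩, ?_, ?_⟩, rfl⟩
    · exact Subtype.ext (mul_inv_cancel₀ hg0)
    · exact Subtype.ext (inv_mul_cancel₀ hg0)
  have := v.ord_unit_smul_zpow hu.unit hirr n
  rw [hf]
  simpa using this

end General

section Dedekind

variable {K F : Type*} [Field K] [Field F] [Algebra K F]
variable {B : Type*} [CommRing B] [IsDedekindDomain B] [Algebra B F] [IsFractionRing B F]
  [Algebra K B] [IsScalarTower K B F]

/-- The `ord` of the place attached to a height-one prime is minus the logarithm of the adic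
valuation. -/
theorem ord_ofHeightOneSpectrum (P : HeightOneSpectrum B) (f : F) :
    (Place.ofHeightOneSpectrum (K := K) P).ord f = -(WithZero.log (P.valuation F f)) := by
  classical
  set w : Place K F := Place.ofHeightOneSpectrum (K := K) P with hw
  rcases eq_or_ne f 0 with rfl | hf
  · simp
  obtain ⟨ϖ, hϖv⟩ := P.valuation_exists_uniformizer F
  have hϖ0 : ϖ ≠ 0 := by
    rintro rfl
    rw [map_zero] at hϖv
    exact WithZero.exp_ne_zero hϖv.symm
  have hmem : ∀ x : F, x ∈ w.toValuationSubring ↔ P.valuation F x ≤ 1 := fun x => by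
    rw [hw, Place.ofHeightOneSpectrum_toValuationSubring, Valuation.mem_valuationSubring_iff]
  have hϖ : ϖ ∈ w.toValuationSubring := by
    rw [hmem, hϖv]
    exact WithZero.exp_le_exp.mpr (by norm_num) |>.trans_eq WithZero.exp_zero
  -- `ϖ` generates the maximal ideal
  have hirr : Irreducible (⟨ϖ, hϖ⟩ : w.toValuationSubring) := by
    rw [IsDiscreteValuationRing.irreducible_iff_uniformizer]
    apply le_antisymm
    · rintro ⟨x, hx⟩ hxm
      rw [Ideal.mem_span_singleton']
      have hxnu : ¬ IsUnit (⟨x, hx⟩ : w.toValuationSubring) := by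
        simpa [IsLocalRing.mem_maximalIdeal] using hxm
      have hxle : P.valuation F x ≤ 1 := (hmem x).mp hx
      have hxlt : P.valuation F x < 1 := by
        refine lt_of_le_of_ne hxle fun h1 => hxnu ?_
        have hx0 : x ≠ 0 := by
          rintro rfl
          simp at h1
        have hxi : x⁻¹ ∈ w.toValuationSubring := by
          rw [hmem, map_inv₀, h1, inv_one]
        exact ⟨⟨⟨x, hx⟩, ⟨x⁻¹, hxi⟩, Subtype.ext (mul_inv_cancel₀ hx0),
          Subtype.ext (inv_mul_cancel₀ hx0)⟩, rfl⟩
      have hxe : P.valuation F x ≤ WithZero.exp (-1 : ℤ) := by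
        rcases eq_or_ne x 0 with rfl | hx0
        · simp
        · have hne : P.valuation F x ≠ 0 := (Valuation.ne_zero_iff _).mpr hx0
          obtain ⟨m, hm⟩ : ∃ m : ℤ, P.valuation F x = WithZero.exp m :=
            ⟨WithZero.log (P.valuation F x), (WithZero.exp_log hne).symm⟩
          rw [hm] at hxlt ⊢
          rw [← WithZero.exp_zero, WithZero.exp_lt_exp] at hxlt
          exact WithZero.exp_le_exp.mpr (by omega)
      have hq : x * ϖ⁻¹ ∈ w.toValuationSubring := by
        rw [hmem, map_mul, map_inv₀, hϖv]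
        calc P.valuation F x * (WithZero.exp (-1 : ℤ))⁻¹
            ≤ WithZero.exp (-1 : ℤ) * (WithZero.exp (-1 : ℤ))⁻¹ := by gcongr
          _ = 1 := mul_inv_cancel₀ (by simp)
      refine ⟨⟨x * ϖ⁻¹, hq⟩, Subtype.ext ?_⟩
      simp [mul_assoc, inv_mul_cancel₀ hϖ0]
    · rw [Ideal.span_singleton_le_iff_mem, IsLocalRing.mem_maximalIdeal, mem_nonunits_iff]
      rintro ⟨u, hu⟩
      have h1 : (u : w.toValuationSubring) * (↑u⁻¹ : w.toValuationSubring) = 1 := by simp
      have h2 : ϖ * ((↑u⁻¹ : w.toValuationSubring) : F) = 1 := by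
        have := congrArg (Subtype.val) h1
        simpa [hu] using this
      have h3 : P.valuation F ((↑u⁻¹ : w.toValuationSubring) : F) ≤ 1 :=
        (hmem _).mp (↑u⁻¹ : w.toValuationSubring).2
      have h4 : P.valuation F ϖ * P.valuation F ((↑u⁻¹ : w.toValuationSubring) : F) = 1 := by
        rw [← map_mul, h2, map_one]
      rw [hϖv] at h4
      have h5 : (1 : WithZero (Multiplicative ℤ)) ≤ WithZero.exp (-1 : ℤ) * 1 := by
        calc (1 : WithZero (Multiplicative ℤ))
            = WithZero.exp (-1 : ℤ) * P.valuation F ((↑u⁻¹ : w.toValuationSubring) : F) :=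
              h4.symm
          _ ≤ WithZero.exp (-1 : ℤ) * 1 := by gcongr
      rw [mul_one, ← WithZero.exp_zero, WithZero.exp_le_exp] at h5
      omega
  have hne : P.valuation F f ≠ 0 := (Valuation.ne_zero_iff _).mpr hf
  set m : ℤ := WithZero.log (P.valuation F f) with hm
  have hfm : P.valuation F f = WithZero.exp m := (WithZero.exp_log hne).symm
  have hgval : P.valuation F (f * ϖ ^ m) = 1 := by
    rw [map_mul, map_zpow₀, hϖv, hfm, ← WithZero.exp_zsmul, ← WithZero.exp_add]
    simp
  have hg0 : f * ϖ ^ m ≠ 0 := mul_ne_zero hf (zpow_ne_zero _ hϖ0)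
  refine ord_eq_of_eq_mul_zpow w hϖ hirr (g := f * ϖ ^ m) ?_ ?_ hg0 ?_
  · rw [hmem, hgval]
  · rw [hmem, map_inv₀, hgval, inv_one]
  · rw [mul_assoc, ← zpow_add₀ hϖ0, add_neg_cancel, zpow_zero, mul_one]

theorem mem_ofHeightOneSpectrum_iff (P : HeightOneSpectrum B) (x : F) :
    x ∈ (Place.ofHeightOneSpectrum (K := K) P).toValuationSubring ↔ P.valuation F x ≤ 1 := by
  rw [Place.ofHeightOneSpectrum_toValuationSubring, Valuation.mem_valuationSubring_iff]

/-- A place whose valuation ring contains the Dedekind model `B` comes from a height-one prime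
of `B`. -/
theorem exists_heightOneSpectrum_of_le (w : Place K F)
    (hB : ∀ b : B, algebraMap B F b ∈ w.toValuationSubring) :
    ∃ P : HeightOneSpectrum B, Place.ofHeightOneSpectrum (K := K) P = w := by
  classical
  let φ : B →+* w.toValuationSubring :=
    (algebraMap B F).codRestrict w.toValuationSubring.toSubring hB
  have hφ : ∀ b, ((φ b : w.toValuationSubring) : F) = algebraMap B F b := fun b => rfl
  let P : Ideal B := (IsLocalRing.maximalIdeal w.toValuationSubring).comap φ
  have hPprime : P.IsPrime := Ideal.comap_isPrime φ _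
  have hPne : P ≠ ⊥ := by
    intro hbot
    apply w.ne_top'
    refine SetLike.ext fun x => ⟨fun _ => ValuationSubring.mem_top x, fun _ => ?_⟩
    obtain ⟨n, d, hd, rfl⟩ := IsFractionRing.div_surjective (A := B) x
    have hd0 : d ≠ 0 := nonZeroDivisors.ne_zero hd
    have hdP : d ∉ P := by
      rw [hbot]
      simpa using hd0
    have hdu : IsUnit (φ d) := by
      by_contra hnu
      exact hdP (by simpa [P, IsLocalRing.mem_maximalIdeal] using hnu)
    obtain ⟨u, hu⟩ := hdu
    have hinv : ((↑u⁻¹ : w.toValuationSubring) : F) = (algebraMap B F d)⁻¹ := by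
      have h1 : (u : w.toValuationSubring) * (↑u⁻¹ : w.toValuationSubring) = 1 := by simp
      have h2 := congrArg Subtype.val h1
      rw [hu] at h2
      simp only [MulMemClass.coe_mul, hφ, OneMemClass.coe_one] at h2
      exact eq_inv_of_mul_eq_one_right h2
    rw [div_eq_mul_inv, ← hinv]
    exact mul_mem (hB n) (↑u⁻¹ : w.toValuationSubring).2
  refine ⟨⟨P, hPprime, hPne⟩, ?_⟩
  apply Place.ext
  rw [Place.ofHeightOneSpectrum_toValuationSubring,
    ← HeightOneSpectrum.valuationSubringAtPrime_eq_valuationSubring]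
  refine ValuationSubring.eq_of_le_of_ne_top _ ?_ w.ne_top'
  intro x hx
  rw [HeightOneSpectrum.valuationSubringAtPrime_eq_valuationSubring,
    Valuation.mem_valuationSubring_iff] at hx
  obtain ⟨n, d, hnd⟩ := HeightOneSpectrum.exists_primeCompl_mul_eq_of_integer
    (⟨P, hPprime, hPne⟩ : HeightOneSpectrum B) x hx
  have hdP : (d : B) ∉ P := d.2
  have hdu : IsUnit (φ d) := by
    by_contra hnu
    exact hdP (by simpa [P, IsLocalRing.mem_maximalIdeal] using hnu)
  obtain ⟨u, hu⟩ := hdu
  have hd0 : algebraMap B F d ≠ 0 := by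
    intro h0
    have : (d : B) = 0 := (IsFractionRing.injective B F) (by simpa using h0)
    exact hdP (this ▸ P.zero_mem)
  have hinv : ((↑u⁻¹ : w.toValuationSubring) : F) = (algebraMap B F d)⁻¹ := by
    have h1 : (u : w.toValuationSubring) * (↑u⁻¹ : w.toValuationSubring) = 1 := by simp
    have h2 := congrArg Subtype.val h1
    rw [hu] at h2
    simp only [MulMemClass.coe_mul, hφ, OneMemClass.coe_one] at h2
    exact eq_inv_of_mul_eq_one_right h2
  have hx' : x = algebraMap B F n * (algebraMap B F d)⁻¹ := by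
    rw [← hnd, mul_assoc, mul_inv_cancel₀ hd0, mul_one]
  rw [hx', ← hinv]
  exact mul_mem (hB n) (↑u⁻¹ : w.toValuationSubring).2

/-- `Place.ofHeightOneSpectrum` is injective. -/
theorem ofHeightOneSpectrum_injective :
    Function.Injective (Place.ofHeightOneSpectrum (K := K) (F := F) (R := B)) := by
  intro P Q h
  apply HeightOneSpectrum.ext
  ext b
  have hP := mem_ofHeightOneSpectrum_iff (K := K) (F := F) P
  have hQ := mem_ofHeightOneSpectrum_iff (K := K) (F := F) Q
  rw [h] at hP
  have key : ∀ (R : HeightOneSpectrum B) (hR : ∀ x : F,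
      x ∈ (Place.ofHeightOneSpectrum (K := K) Q).toValuationSubring ↔ R.valuation F x ≤ 1),
      b ∈ R.asIdeal ↔ (b = 0 ∨
        (algebraMap B F b)⁻¹ ∉ (Place.ofHeightOneSpectrum (K := K) Q).toValuationSubring) := by
    intro R hR
    rw [← HeightOneSpectrum.valuation_lt_one_iff_mem (K := F)]
    rcases eq_or_ne b 0 with rfl | hb
    · simp
    · have hb' : algebraMap B F b ≠ 0 := by
        intro h0
        exact hb ((IsFractionRing.injective B F) (by simpa using h0))
      have hne : R.valuation F (algebraMap B F b) ≠ 0 := (Valuation.ne_zero_iff _).mpr hb'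
      rw [hR, map_inv₀]
      simp only [hb, false_or, not_le]
      rw [one_lt_inv₀ (zero_lt_iff.mpr hne)]
  rw [key P hP, key Q hQ]

end Dedekind

end Fermat.Agent.Lib.FF460
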