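import Fermat.Agent.Lib.FF460.Norm

/-!
# Function-field library (helper460): fundamental identity and norm formula, ANY characteristic

For a finite **separable** extension `F'/F` of function fields over an algebraically closed
field `K` of arbitrary characteristic (e.g. `F_k / k(t̄)` in characteristic `ℓ`):

* `sumRamificationInertia_of_isSeparable : SumRamificationInertia K F F'`
* `fundamentalIdentity_of_isSeparable   : FundamentalIdentity K F F'`
* `pushforwardNormFormula_of_isSeparable : Divisor.PushforwardNormFormula K F F'`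

Mathlib's `Ideal.relNorm_eq_pow_of_isMaximal` needs a perfect fraction field; here it is
replaced by a counting argument (all residue degrees are one).
-/

set_option autoImplicit false
set_option linter.unusedSectionVars false
set_option linter.style.haveILetI false

open IsDedekindDomain AlgebraicCurve

namespace Fermat.Agent.Lib.FF460

section Local
variable {K F F' : Type*} [Field K] [Field F] [Field F'] [Algebra K F] [Algebra K F']
  [Algebra F F'] [IsScalarTower K F F'] [FiniteDimensional F F'] [Algebra.IsSeparable F F']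
variable (v : Place K F)

theorem maxId_ne_top : maxId v ≠ ⊤ := Ideal.IsPrime.ne_top'

theorem ramificationIdx_pos (Q : (maxId v).primesOver (intCl F' v)) :
    0 < Q.1.ramificationIdx ↥v.toValuationSubring := by
  have h := ramificationIndex_placeOfOver v Q
  have hpos := (placeOfOver v Q).ramificationIndex_pos (F := F)
  omega

theorem exists_relNorm_eq_pow (Q : (maxId v).primesOver (intCl F' v)) :
      ∃ s : ℕ, 0 < s ∧ Ideal.relNorm ↥v.toValuationSubring Q.1 = maxId v ^ s := by
  have hp1 : maxId v ≠ ⊤ := maxId_ne_top v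
  haveI : Q.1.LiesOver (maxId v) := Q.2.2
  obtain ⟨s, hs⟩ := Ideal.exists_relNorm_eq_pow_of_isPrime Q.1 (maxId v)
  refine ⟨s, Nat.pos_of_ne_zero ?_, hs⟩
  rintro rfl
  have hle := Ideal.relNorm_le_comap ↥v.toValuationSubring Q.1
  rw [hs, pow_zero, Ideal.one_eq_top, top_le_iff] at hle
  have hover : maxId v = Ideal.comap (algebraMap ↥v.toValuationSubring (intCl F' v)) Q.1 :=
    Ideal.over_def Q.1 (maxId v)
  exact hp1 (hover.trans hle)

theorem pow_finrank_eq (s : (maxId v).primesOver (intCl F' v) → ℕ)
    (hs : ∀ Q : (maxId v).primesOver (intCl F' v),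
      Ideal.relNorm ↥v.toValuationSubring Q.1 = maxId v ^ s Q) :
    maxId v ^ Module.finrank ↥v.toValuationSubring (intCl F' v) =
      maxId v ^ ∑ Q : (maxId v).primesOver (intCl F' v),
        Q.1.ramificationIdx ↥v.toValuationSubring * s Q := by
  classical
  have hp0 : maxId v ≠ ⊥ := maxId_ne_bot v
  rw [← Ideal.relNorm_algebraMap (intCl F' v) (maxId v),
    Ideal.map_algebraMap_eq_finsetProd_pow hp0, map_prod, ← Finset.prod_pow_eq_pow_sum]
  rw [← Finset.prod_set_coe (s := (maxId v).primesOver (intCl F' v))
      (f := fun P => Ideal.relNorm ↥v.toValuationSubring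
        (P ^ P.ramificationIdx ↥v.toValuationSubring))]
  refine Finset.prod_congr rfl fun Q _ => ?_
  rw [map_pow, hs Q, ← pow_mul, mul_comm]

theorem sum_ramificationIdx_eq
    (hin : ∀ Q : (maxId v).primesOver (intCl F' v),
      Q.1.inertiaDeg ↥v.toValuationSubring = 1) :
    ∑ Q : (maxId v).primesOver (intCl F' v), Q.1.ramificationIdx ↥v.toValuationSubring
      = Module.finrank ↥v.toValuationSubring (intCl F' v) := by
  rw [← Ideal.sum_ramification_inertia_eq_finrank (maxId v) (intCl F' v)]
  refine Finset.sum_congr rfl fun Q _ => ?_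
  rw [hin Q, mul_one]

theorem relNorm_eq_maxId
    (hin : ∀ Q : (maxId v).primesOver (intCl F' v),
      Q.1.inertiaDeg ↥v.toValuationSubring = 1)
    (Q₀ : (maxId v).primesOver (intCl F' v)) :
    Ideal.relNorm ↥v.toValuationSubring Q₀.1 = maxId v := by
  classical
  have hp0 : maxId v ≠ ⊥ := maxId_ne_bot v
  have hp1 : maxId v ≠ ⊤ := maxId_ne_top v
  choose s hs0 hs using exists_relNorm_eq_pow v (F' := F')
  have h2 := (Ideal.pow_right_strictAnti (maxId v) hp0 hp1).injective (pow_finrank_eq v s hs)
  have h4 : ∑ Q : (maxId v).primesOver (intCl F' v), Q.1.ramificationIdx ↥v.toValuationSubring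
      = ∑ Q : (maxId v).primesOver (intCl F' v),
        Q.1.ramificationIdx ↥v.toValuationSubring * s Q := (sum_ramificationIdx_eq v hin).trans h2
  have h5 : ∀ Q ∈ (Finset.univ : Finset ((maxId v).primesOver (intCl F' v))),
      Q.1.ramificationIdx ↥v.toValuationSubring
        = Q.1.ramificationIdx ↥v.toValuationSubring * s Q := by
    refine (Finset.sum_eq_sum_iff_of_le fun Q _ => ?_).mp h4
    exact Nat.le_mul_of_pos_right _ (hs0 Q)
  have h6 : s Q₀ = 1 := by
    have := h5 Q₀ (Finset.mem_univ _)
    have hpos := ramificationIdx_pos v Q₀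
    exact (Nat.eq_of_mul_eq_mul_left hpos (by rw [mul_one]; exact this.symm))
  rw [hs Q₀, h6, pow_one]

/-- `ord_v` of the integral norm of `b ∈ B` is the total multiplicity of `(b)`, provided all
residue degrees are one (any characteristic). -/
theorem ord_intNorm_of_isSeparable
    (hin : ∀ P : HeightOneSpectrum (intCl F' v), P.asIdeal.inertiaDeg ↥v.toValuationSubring = 1)
    {b : intCl F' v} (hb : b ≠ 0) :
    v.ord (algebraMap ↥v.toValuationSubring F (Algebra.intNorm ↥v.toValuationSubring (intCl F' v) b))
      = ∑ P : HeightOneSpectrum (intCl F' v), (cnt v P b : ℤ) := by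
  classical
  obtain ⟨π, hπ⟩ := IsDiscreteValuationRing.exists_irreducible ↥v.toValuationSubring
  have hI : Ideal.span {b} ≠ (0 : Ideal (intCl F' v)) := by
    rw [Ne, Ideal.zero_eq_bot, Ideal.span_singleton_eq_bot]
    exact hb
  have h1 := Ideal.finprod_heightOneSpectrum_factorization hI
  rw [finprod_eq_prod_of_fintype] at h1
  have h2 : Ideal.relNorm ↥v.toValuationSubring (Ideal.span {b}) =
      (maxId v) ^ (∑ P : HeightOneSpectrum (intCl F' v), cnt v P b) := by
    conv_lhs => rw [← h1]
    rw [map_prod, ← Finset.prod_pow_eq_pow_sum]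
    refine Finset.prod_congr rfl fun P _ => ?_
    have := relNorm_eq_maxId v (fun Q => hin (equivOver v Q)) ((equivOver v).symm P)
    rw [HeightOneSpectrum.maxPowDividing, map_pow]
    exact congrArg (· ^ _) this
  rw [Ideal.relNorm_singleton, maxId, hπ.maximalIdeal_eq, Ideal.span_singleton_pow,
    Ideal.span_singleton_eq_span_singleton] at h2
  obtain ⟨u, hu⟩ := h2.symm
  set k : ℕ := ∑ P : HeightOneSpectrum (intCl F' v), cnt v P b with hk
  have hu0 : ((u : ↥v.toValuationSubring) : F) ≠ 0 := by
    intro h
    have := u.ne_zero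
    exact this (Subtype.ext h)
  have key := ord_eq_of_eq_mul_zpow v (ϖ := (π : F)) (g := ((u : ↥v.toValuationSubring) : F))
    (f := algebraMap ↥v.toValuationSubring F
      (Algebra.intNorm ↥v.toValuationSubring (intCl F' v) b)) (n := (k : ℤ)) π.2 hπ
    (u : ↥v.toValuationSubring).2 ?_ hu0 ?_
  · rw [key, hk]
    push_cast
    rfl
  · have : (((u⁻¹ : (↥v.toValuationSubring)ˣ) : ↥v.toValuationSubring) : F)
        = ((u : ↥v.toValuationSubring) : F)⁻¹ := by
      apply eq_inv_of_mul_eq_one_left
      show ((((u⁻¹ : (↥v.toValuationSubring)ˣ) : ↥v.toValuationSubring) *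
        (u : ↥v.toValuationSubring) : ↥v.toValuationSubring) : F) = 1
      rw [Units.inv_mul]
      rfl
    rw [← this]
    exact ((u⁻¹ : (↥v.toValuationSubring)ˣ) : ↥v.toValuationSubring).2
  · rw [← hu]
    show ((π ^ k * (u : ↥v.toValuationSubring) : ↥v.toValuationSubring) : F) = _
    push_cast
    rw [zpow_natCast, mul_comm]

theorem sumOrd_mul_of_isSeparable {f g : F'} (hf : f ≠ 0) (hg : g ≠ 0) :
    sumOrd v (f * g) = sumOrd v f + sumOrd v g := by
  simp only [sumOrd]
  rw [← Finset.sum_add_distrib]
  exact Finset.sum_congr rfl fun P _ => Place.ord_mul _ hf hg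

theorem sumOrd_inv_of_isSeparable (f : F') : sumOrd v f⁻¹ = - sumOrd v f := by
  simp only [sumOrd]
  rw [← Finset.sum_neg_distrib]
  exact Finset.sum_congr rfl fun P _ => Place.ord_inv _ f

theorem sumOrd_coe_of_isSeparable
    (hin : ∀ P : HeightOneSpectrum (intCl F' v), P.asIdeal.inertiaDeg ↥v.toValuationSubring = 1)
    {b : intCl F' v} (hb : b ≠ 0) :
    sumOrd v (b : F') = v.ord (Algebra.norm F (b : F')) := by
  have h := ord_intNorm_of_isSeparable v hin hb
  rw [Algebra.algebraMap_intNorm (L := F')] at h
  rw [show (b : F') = algebraMap (intCl F' v) F' b from rfl, h]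
  exact Finset.sum_congr rfl fun P _ => ord_ofHeightOneSpectrum_coe v P hb

/-- **Norm formula, local form, any characteristic**: `∑_{w | v} ord_w f = ord_v (N_{F'/F} f)`. -/
theorem sumOrd_eq_ord_norm_of_isSeparable
    (hin : ∀ P : HeightOneSpectrum (intCl F' v), P.asIdeal.inertiaDeg ↥v.toValuationSubring = 1)
    {f : F'} (hf : f ≠ 0) :
    sumOrd v f = v.ord (Algebra.norm F f) := by
  obtain ⟨x, y, hy, rfl⟩ := IsFractionRing.div_surjective (intCl F' v) f
  have hy0 : y ≠ 0 := nonZeroDivisors.ne_zero hy
  have hx0 : x ≠ 0 := by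
    rintro rfl
    simp at hf
  have hx' : algebraMap (intCl F' v) F' x ≠ 0 :=
    (map_ne_zero_iff _ (IsFractionRing.injective _ _)).mpr hx0
  have hy' : algebraMap (intCl F' v) F' y ≠ 0 :=
    (map_ne_zero_iff _ (IsFractionRing.injective _ _)).mpr hy0
  have hnx : Algebra.norm F (algebraMap (intCl F' v) F' x) ≠ 0 :=
    Algebra.norm_ne_zero_iff.mpr hx'
  have hny : Algebra.norm F (algebraMap (intCl F' v) F' y) ≠ 0 :=
    Algebra.norm_ne_zero_iff.mpr hy'
  have hinv : Algebra.norm F (algebraMap (intCl F' v) F' y)⁻¹ =
      (Algebra.norm F (algebraMap (intCl F' v) F' y))⁻¹ := by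
    apply eq_inv_of_mul_eq_one_left
    rw [← map_mul, inv_mul_cancel₀ hy', map_one]
  rw [div_eq_mul_inv, sumOrd_mul_of_isSeparable v hx' (inv_ne_zero hy'),
    sumOrd_inv_of_isSeparable, map_mul, hinv,
    Place.ord_mul _ hnx (inv_ne_zero hny), Place.ord_inv]
  have h1 := sumOrd_coe_of_isSeparable v hin hx0
  have h2 := sumOrd_coe_of_isSeparable v hin hy0
  rw [show (x : F') = algebraMap (intCl F' v) F' x from rfl] at h1
  rw [show (y : F') = algebraMap (intCl F' v) F' y from rfl] at h2
  rw [h1, h2]

end Local

section Main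

variable {K F F' : Type*} [Field K] [Field F] [Field F'] [Algebra K F] [Algebra K F']
  [Algebra F F'] [IsScalarTower K F F'] [FiniteDimensional F F'] [Algebra.IsSeparable F F']
  [IsAlgClosed K]

/-- Over an algebraically closed constant field all residue degrees are one. -/
theorem place_inertiaDeg_eq_one_of_isAlgClosed {x : F'} (hx : Transcendental K x)
    [FiniteDimensional (IntermediateField.adjoin K {x}) F'] (w : Place K F') :
    w.inertiaDeg F = 1 := by
  have h := w.deg_restrict_mul_inertiaDeg (F := F)
  rw [Fermat.Agent.S24.FF.deg_eq_one w hx] at h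
  exact Nat.eq_one_of_mul_eq_one_left h

/-- **Fundamental identity** `∑_{w | v} e(w|v) f(w|v) = [F' : F]` for a finite separable
extension of function fields over an algebraically closed field (any characteristic). -/
theorem sumRamificationInertia_of_isSeparable [HasPrincipalDivisors K F'] {x : F'}
    (hx : Transcendental K x) [FiniteDimensional (IntermediateField.adjoin K {x}) F'] :
    SumRamificationInertia K F F' where
  sum_ramificationIndex_mul_inertiaDeg v := by
    classical
    rw [← sum_ramificationIndex_placeOfOver v hx]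
    symm
    refine Finset.sum_bij (fun Q _ => placeOfOver v Q) ?_ ?_ ?_ ?_
    · intro Q _
      exact Place.mem_fiber.mpr (restrict_placeOfOver v Q)
    · intro Q _ Q' _ h
      exact placeOfOver_injective v h
    · intro w hw
      obtain ⟨Q, hQ⟩ := exists_placeOfOver_eq v (Place.mem_fiber.mp hw)
      exact ⟨Q, Finset.mem_univ _, hQ⟩
    · intro Q _
      rw [place_inertiaDeg_eq_one_of_isAlgClosed hx]
      simp

theorem fundamentalIdentity_of_isSeparable [HasPrincipalDivisors K F'] {x : F'}
    (hx : Transcendental K x) [FiniteDimensional (IntermediateField.adjoin K {x}) F'] :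
    FundamentalIdentity K F F' :=
  haveI := sumRamificationInertia_of_isSeparable (K := K) (F := F) hx
  inferInstance

/-- **Norm formula** `π_* div(f) = div(N_{F'/F} f)` for a finite separable extension of function
fields over an algebraically closed field (any characteristic). -/
theorem pushforwardNormFormula_of_isSeparable {x : F'} (hx : Transcendental K x)
    [FiniteDimensional (IntermediateField.adjoin K {x}) F'] :
    Divisor.PushforwardNormFormula K F F' := by
  classical
  intro f hf D hD v
  have hin : ∀ P : HeightOneSpectrum (intCl F' v),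
      P.asIdeal.inertiaDeg ↥v.toValuationSubring = 1 := fun P =>
    inertiaDeg_primesOver_eq_one v hx ((equivOver v).symm P)
  rw [← sumOrd_eq_ord_norm_of_isSeparable v hin hf, Divisor.pushforward_apply]
  have hL : ∑ w ∈ D.support, (if w.restrict F = v then D w * (w.inertiaDeg F : ℤ) else 0)
      = ∑ w ∈ D.support.filter (fun w => w.restrict F = v), w.ord f := by
    rw [Finset.sum_filter]
    refine Finset.sum_congr rfl fun w _ => ?_
    by_cases h : w.restrict F = v
    · rw [if_pos h, if_pos h, hD, place_inertiaDeg_eq_one_of_isAlgClosed hx]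
      simp
    · rw [if_neg h, if_neg h]
  rw [hL]
  have hinj : Function.Injective
      (fun P : HeightOneSpectrum (intCl F' v) => Place.ofHeightOneSpectrum (K := K) (F := F') P) :=
    ofHeightOneSpectrum_injective (K := K) (F := F') (B := intCl F' v)
  have hR : sumOrd v f = ∑ w ∈ (Finset.univ.image
      (fun P : HeightOneSpectrum (intCl F' v) => Place.ofHeightOneSpectrum (K := K) (F := F') P)),
      w.ord f := by
    rw [Finset.sum_image (fun P _ Q _ h => hinj h)]
  rw [hR]
  refine Finset.sum_subset ?_ ?_
  · intro w hw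
    rw [Finset.mem_filter] at hw
    obtain ⟨Q, hQ⟩ := exists_placeOfOver_eq v hw.2
    exact Finset.mem_image.mpr ⟨primeOfOver v Q, Finset.mem_univ _, hQ⟩
  · intro w hw hw'
    obtain ⟨P, -, rfl⟩ := Finset.mem_image.mp hw
    rw [Finset.mem_filter, not_and] at hw'
    have : Place.ofHeightOneSpectrum (K := K) (F := F') P ∉ D.support := fun h =>
      hw' h (restrict_ofHeightOneSpectrum v P)
    rw [Finsupp.notMem_support_iff, hD] at this
    exact this

end Main

end Fermat.Agent.Lib.FF460
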